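import Mathlib
import Fermat.Agent.S37.Red.H159.LiftNC

/-!
# S37, Route II (helper148): `NoRamOutside` from unramifiedness in valuation-subring form

`Red.H159.good_of_NC` (THEOREM M, helper159) produces `G.Good` for a reduction datum from (H1)
and the two hypotheses `NoRamOutside G G.x S₀`, `NoRamOutside G G.x⁻¹ S₁` with `S₀, S₁ : Finset A`
injective modulo the maximal ideal.

This file is Mathlib + `Red/Spec.lean` only.  It produces the two `NoRamOutside` hypotheses from
the branch data in the form of `S18.Alg.GoodModel` (fields `S_mem`, `S_distinct`, `S_unit`,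
`unramified`), for an ARBITRARY coordinate `t`:

* `mem_integralClosure_adjoin_iff` : `f` is integral over `K[t]` iff `f` lies in every valuation
  subring of `F` containing `K` and `t`;
* `div_mem_of_unramified` : the elementwise (NC) at one value `c`;
* `div_mem_of_unramified_inv` : the same for the coordinate `t⁻¹` at `c ≠ 0`, from unramifiedness
  of `t` at `c⁻¹`;
* `exists_noRamOutside` : the pair `S₀`, `S₁` with both `NoRamOutside` statements.
-/

set_option autoImplicit false

namespace Fermat.Agent.S37.H148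

open Fermat.Agent.S37.Red

section Field

variable {K F : Type*} [Field K] [Field F] [Algebra K F]

/-- `f` is integral over `K[t]` iff it lies in every valuation subring containing `K` and `t`. -/
theorem mem_integralClosure_adjoin_iff (t f : F) :
    f ∈ integralClosure (Algebra.adjoin K {t}) F ↔
      ∀ V : ValuationSubring F, (∀ a : K, algebraMap K F a ∈ V) → t ∈ V → f ∈ V := by
  set s : Set F := Set.range (algebraMap K F) ∪ {t} with hs
  have hle : Subring.closure s ≤ (Algebra.adjoin K {t}).toSubring := by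
    rw [Subring.closure_le]
    rintro y (⟨a, rfl⟩ | rfl)
    · exact (Algebra.adjoin K {t}).algebraMap_mem a
    · exact Algebra.self_mem_adjoin_singleton K _
  constructor
  · intro hf V hK ht
    have hadj : (Algebra.adjoin K {t}).toSubring ≤ V.toSubring := by
      intro y hy
      have hy' : y ∈ Algebra.adjoin K {t} := hy
      refine Algebra.adjoin_induction (p := fun y _ => y ∈ V.toSubring) ?_ ?_ ?_ ?_ hy'
      · intro x hx
        rw [Set.mem_singleton_iff] at hx
        rw [hx]; exact ht
      · intro r; exact hK r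
      · intro x y _ _ hx hy; exact add_mem hx hy
      · intro x y _ _ hx hy; exact mul_mem hx hy
    obtain ⟨p, hp, hpf⟩ := hf
    let ι : Algebra.adjoin K {t} →+* V := Subring.inclusion hadj
    have hint : IsIntegral V f := by
      refine ⟨p.map ι, hp.map ι, ?_⟩
      rw [Polynomial.eval₂_map]
      exact hpf
    have := (IsIntegrallyClosed.isIntegral_iff (R := V) (K := F)).mp hint
    obtain ⟨y, rfl⟩ := this
    exact y.2
  · intro h
    have hmem : f ∈ (integralClosure (Subring.closure s) F).toSubring := by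
      rw [← iInf_valuationSubring_superset]
      rw [Subring.mem_iInf]
      rintro ⟨V, hV⟩
      exact h V (fun a => hV (Or.inl ⟨a, rfl⟩)) (hV (Or.inr rfl))
    have hint : IsIntegral (Subring.closure s) f := hmem
    obtain ⟨p, hp, hpf⟩ := hint
    let ι : Subring.closure s →+* Algebra.adjoin K {t} := Subring.inclusion hle
    refine ⟨p.map ι, hp.map ι, ?_⟩
    rw [Polynomial.eval₂_map]
    exact hpf

/-- Elementwise (NC) at the value `c` from unramifiedness at `c` in valuation-subring form. -/
theorem div_mem_of_unramified (t : F) (c : K)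
    (hunr : ∀ O : ValuationSubring F, (∀ a : K, algebraMap K F a ∈ O) →
      t - algebraMap K F c ∈ O → (t - algebraMap K F c)⁻¹ ∉ O →
      ∀ u ∈ O, u⁻¹ ∉ O → u * (t - algebraMap K F c)⁻¹ ∈ O)
    (f : F) (hf : f ∈ integralClosure (Algebra.adjoin K {t}) F)
    (hf2 : f ^ 2 / (t - algebraMap K F c) ∈ integralClosure (Algebra.adjoin K {t}) F) :
    f / (t - algebraMap K F c) ∈ integralClosure (Algebra.adjoin K {t}) F := by
  rw [mem_integralClosure_adjoin_iff] at hf hf2 ⊢
  intro V hK ht
  have hfV := hf V hK ht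
  have hf2V := hf2 V hK ht
  set d : F := t - algebraMap K F c with hd
  have hdV : d ∈ V := sub_mem ht (hK c)
  rw [div_eq_mul_inv]
  by_cases hf0 : f = 0
  · rw [hf0, zero_mul]; exact V.zero_mem
  by_cases hdi : d⁻¹ ∈ V
  · exact V.mul_mem _ _ hfV hdi
  have hd0 : d ≠ 0 := fun h => hdi (by rw [h, inv_zero]; exact V.zero_mem)
  by_cases hfi : f⁻¹ ∈ V
  · exfalso
    apply hdi
    have : d⁻¹ = f ^ 2 / d * f⁻¹ * f⁻¹ := by
      field_simp
    rw [this]
    exact V.mul_mem _ _ (V.mul_mem _ _ hf2V hfi) hfi
  · exact hunr V hK hdV hdi f hfV hfi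

/-- A valuation subring containing `K`: if `e` is a nonunit and `c ≠ 0` a constant then `e + c`
is a unit. -/
theorem add_const_inv_mem (V : ValuationSubring F) (hK : ∀ a : K, algebraMap K F a ∈ V)
    (e : F) (heV : e ∈ V) (hei : e⁻¹ ∉ V) (c : K) (hc : c ≠ 0) :
    (e + algebraMap K F c)⁻¹ ∈ V := by
  by_contra h
  -- `e + c` is a nonunit, `e` is a nonunit, so `c` is a nonunit
  have hcF : algebraMap K F c ≠ 0 := by
    rw [Ne, map_eq_zero]; exact hc
  have h1 : V.valuation (e + algebraMap K F c) < 1 := by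
    have hmem : e + algebraMap K F c ∈ V := V.add_mem _ _ heV (hK c)
    have hle := (V.valuation_le_one_iff _).mpr hmem
    rcases lt_or_eq_of_le hle with hlt | heq
    · exact hlt
    · exfalso
      apply h
      rw [← V.valuation_le_one_iff, map_inv₀, heq, inv_one]
  have h2 : V.valuation e < 1 := by
    have hle := (V.valuation_le_one_iff _).mpr heV
    rcases lt_or_eq_of_le hle with hlt | heq
    · exact hlt
    · exfalso
      apply hei
      rw [← V.valuation_le_one_iff, map_inv₀, heq, inv_one]
  have h3 : V.valuation (algebraMap K F c) < 1 := by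
    have : algebraMap K F c = (e + algebraMap K F c) - e := by ring
    rw [this]
    exact Valuation.map_sub_lt _ h1 h2
  have h4 : (algebraMap K F c)⁻¹ ∈ V := by
    rw [← map_inv₀]; exact hK _
  have h5 := (V.valuation_le_one_iff _).mpr h4
  rw [map_inv₀] at h5
  have h6 : V.valuation (algebraMap K F c) ≠ 0 := (map_ne_zero _).mpr hcF
  have h7 : 1 ≤ V.valuation (algebraMap K F c) := by
    rwa [inv_le_one₀ (zero_lt_iff.mpr h6)] at h5
  exact absurd h3 (not_lt.mpr h7)

/-- Elementwise (NC) for the coordinate `t⁻¹` at a value `c ≠ 0`, from unramifiedness of `t` at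
`c⁻¹` in valuation-subring form. -/
theorem div_mem_of_unramified_inv (t : F) (c : K) (hc : c ≠ 0)
    (hunr : ∀ O : ValuationSubring F, (∀ a : K, algebraMap K F a ∈ O) →
      t - algebraMap K F c⁻¹ ∈ O → (t - algebraMap K F c⁻¹)⁻¹ ∉ O →
      ∀ u ∈ O, u⁻¹ ∉ O → u * (t - algebraMap K F c⁻¹)⁻¹ ∈ O)
    (f : F) (hf : f ∈ integralClosure (Algebra.adjoin K {t⁻¹}) F)
    (hf2 : f ^ 2 / (t⁻¹ - algebraMap K F c) ∈ integralClosure (Algebra.adjoin K {t⁻¹}) F) :
    f / (t⁻¹ - algebraMap K F c) ∈ integralClosure (Algebra.adjoin K {t⁻¹}) F := by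
  refine div_mem_of_unramified t⁻¹ c ?_ f hf hf2
  intro O hK heO hei u huO hui
  set e : F := t⁻¹ - algebraMap K F c with he
  have hcF : algebraMap K F c ≠ 0 := by
    rw [Ne, map_eq_zero]; exact hc
  have he0 : e ≠ 0 := fun h => hei (by rw [h, inv_zero]; exact O.zero_mem)
  -- `t⁻¹ = e + c` is a unit of `O`
  have htinv : t⁻¹ = e + algebraMap K F c := by rw [he]; ring
  have htO : t ∈ O := by
    have := add_const_inv_mem O hK e heO hei c hc
    rwa [← htinv, inv_inv] at this
  have htiO : t⁻¹ ∈ O := by rw [htinv]; exact O.add_mem _ _ heO (hK c)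
  have ht0 : t ≠ 0 := by
    intro h
    rw [h, inv_zero] at htinv
    have : e = - algebraMap K F c := by linear_combination -htinv
    apply hei
    rw [this, inv_neg, ← map_inv₀]
    exact O.neg_mem _ (hK _)
  -- `t - c⁻¹ = - t c⁻¹ e`
  have hkey : t - algebraMap K F c⁻¹ = -(t * algebraMap K F c⁻¹ * e) := by
    rw [he, map_inv₀]
    field_simp
    ring
  have hciO : algebraMap K F c⁻¹ ∈ O := hK _
  have hd : t - algebraMap K F c⁻¹ ∈ O := by
    rw [hkey]
    exact O.neg_mem _ (O.mul_mem _ _ (O.mul_mem _ _ htO hciO) heO)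
  have hdi : (t - algebraMap K F c⁻¹)⁻¹ ∉ O := by
    intro h
    apply hei
    have : e⁻¹ = -((t - algebraMap K F c⁻¹)⁻¹ * (t * algebraMap K F c⁻¹)) := by
      rw [hkey, map_inv₀]
      field_simp
    rw [this]
    exact O.neg_mem _ (O.mul_mem _ _ h (O.mul_mem _ _ htO hciO))
  have hmain := hunr O hK hd hdi u huO hui
  have : u * e⁻¹ = -(u * (t - algebraMap K F c⁻¹)⁻¹ * (t * algebraMap K F c⁻¹)) := by
    rw [hkey, map_inv₀]
    field_simp
  rw [this]
  exact O.neg_mem _ (O.mul_mem _ _ hmain (O.mul_mem _ _ htO hciO))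

end Field

section Datum

universe u

variable {K k : Type u} [Field K] [Field k] {A : ValuationSubring K} {π : A →+* k}
  {F Fk : Type u} [Field F] [Field Fk] [Algebra K F] [Algebra k Fk]

/-- the embedding `A → F` of the constants is injective -/
theorem constA_injective :
    Function.Injective (fun a : A => algebraMap K F (a : K)) := fun _ _ h =>
  Subtype.ext ((algebraMap K F).injective h)

/-- a unit of `A` does not reduce to `0` -/
theorem pi_ne_zero_of_mul_eq_one (π : A →+* k) {a b : A} (h : a * b = 1) : π a ≠ 0 := by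
  intro h0
  have := congrArg π h
  rw [map_mul, h0, zero_mul, map_one] at this
  exact zero_ne_one this

/-- **(NC) on both charts from the branch data** (in the shape of `S18.Alg.GoodModel`):
if the finite branch values `S` of the coordinate `t` lie in `A` and are pairwise distinct
modulo the maximal ideal, and `t` is unramified over every `c ∉ S` (valuation-subring form),
then there are finite sets `S₀, S₁ ⊆ A`, injective modulo the maximal ideal, with
`NoRamOutside G t S₀` and `NoRamOutside G t⁻¹ S₁`. -/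
theorem exists_noRamOutside (G : Datum A π F Fk) (t : F) (S : Finset F)
    (S_mem : ∀ s ∈ S, ∃ a : A, algebraMap K F (a : K) = s)
    (S_distinct : ∀ s ∈ S, ∀ s' ∈ S, s ≠ s' → ∃ a : A, algebraMap K F (a : K) = (s - s')⁻¹)
    (hunr : ∀ O : ValuationSubring F, (∀ a : K, algebraMap K F a ∈ O) →
      ∀ c : K, algebraMap K F c ∉ S →
      t - algebraMap K F c ∈ O → (t - algebraMap K F c)⁻¹ ∉ O →
      ∀ u ∈ O, u⁻¹ ∉ O → u * (t - algebraMap K F c)⁻¹ ∈ O) :
    ∃ S₀ S₁ : Finset A, Set.InjOn π (S₀ : Set A) ∧ Set.InjOn π (S₁ : Set A) ∧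
      H159.NoRamOutside G t S₀ ∧ H159.NoRamOutside G t⁻¹ S₁ := by
  classical
  have hinj : Function.Injective (fun a : A => algebraMap K F (a : K)) :=
    constA_injective (K := K) (A := A) (F := F)
  have hinj' : Function.Injective (fun a : A => (algebraMap K F (a : K))⁻¹) := fun a b h =>
    hinj (inv_injective h)
  let S₀ : Finset A := S.preimage (fun a : A => algebraMap K F (a : K)) hinj.injOn
  let S₁ : Finset A :=
    insert 0 (S.preimage (fun a : A => (algebraMap K F (a : K))⁻¹) hinj'.injOn)
  have hS₀ : ∀ a : A, a ∈ S₀ ↔ algebraMap K F (a : K) ∈ S := fun a => Finset.mem_preimage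
  have hS₁ : ∀ a : A, a ∈ S₁ ↔ a = 0 ∨ (algebraMap K F (a : K))⁻¹ ∈ S := fun a => by
    rw [Finset.mem_insert, Finset.mem_preimage]
  have hI₀ : Set.InjOn π (S₀ : Set A) := by
    intro a ha b hb hab
    rw [Finset.mem_coe, hS₀] at ha hb
    by_contra hne
    have hne' : algebraMap K F (a : K) ≠ algebraMap K F (b : K) := fun h => hne (hinj h)
    obtain ⟨e, he⟩ := S_distinct _ ha _ hb hne'
    have h1 : (a - b) * e = 1 := by
      apply hinj
      show algebraMap K F (((a : K) - (b : K)) * (e : K)) = algebraMap K F 1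
      rw [map_mul, map_sub, he, map_one]
      exact mul_inv_cancel₀ (sub_ne_zero.mpr hne')
    apply pi_ne_zero_of_mul_eq_one π h1
    rw [map_sub, hab, sub_self]
  -- a nonzero element of `S₁` is the inverse of an element of `S₀`
  have hunit : ∀ a : A, a ≠ 0 → (algebraMap K F (a : K))⁻¹ ∈ S →
      ∃ a' : A, a' ∈ S₀ ∧ a * a' = 1 := by
    intro a ha0 haS
    obtain ⟨a', ha'⟩ := S_mem _ haS
    refine ⟨a', (hS₀ a').mpr (by rw [ha']; exact haS), ?_⟩
    apply hinj
    show algebraMap K F ((a : K) * (a' : K)) = algebraMap K F 1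
    rw [map_mul, ha', map_one]
    refine mul_inv_cancel₀ ?_
    rw [Ne, map_eq_zero]
    exact fun h => ha0 (Subtype.ext h)
  have hI₁ : Set.InjOn π (S₁ : Set A) := by
    intro a ha b hb hab
    rw [Finset.mem_coe, hS₁] at ha hb
    by_cases ha0 : a = 0
    · by_cases hb0 : b = 0
      · rw [ha0, hb0]
      · exfalso
        obtain ⟨b', -, hbb'⟩ := hunit b hb0 (hb.resolve_left hb0)
        apply pi_ne_zero_of_mul_eq_one π hbb'
        rw [← hab, ha0, map_zero]
    · by_cases hb0 : b = 0
      · exfalso
        obtain ⟨a', -, haa'⟩ := hunit a ha0 (ha.resolve_left ha0)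
        apply pi_ne_zero_of_mul_eq_one π haa'
        rw [hab, hb0, map_zero]
      · obtain ⟨a', ha'S, haa'⟩ := hunit a ha0 (ha.resolve_left ha0)
        obtain ⟨b', hb'S, hbb'⟩ := hunit b hb0 (hb.resolve_left hb0)
        have hπ : π a' = π b' := by
          have h1 : π a * π a' = 1 := by rw [← map_mul, haa', map_one]
          have h2 : π b * π b' = 1 := by rw [← map_mul, hbb', map_one]
          have h3 : π a ≠ 0 := pi_ne_zero_of_mul_eq_one π haa'
          rw [← hab] at h2
          exact mul_left_cancel₀ h3 (h1.trans h2.symm)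
        have heq : a' = b' := hI₀ (Finset.mem_coe.mpr ha'S) (Finset.mem_coe.mpr hb'S) hπ
        have : a = a * (b * b') := by rw [hbb', mul_one]
        rw [this, ← heq, mul_comm b a', ← mul_assoc, haa', one_mul]
  refine ⟨S₀, S₁, hI₀, hI₁, fun c hc f hf hf2 => ?_, fun c hc f hf hf2 => ?_⟩
  · rw [hS₀] at hc
    exact div_mem_of_unramified t (c : K) (fun O hK => hunr O hK (c : K) hc) f hf hf2
  · rw [hS₁, not_or] at hc
    have hc0 : (c : K) ≠ 0 := fun h => hc.1 (Subtype.ext h)
    have hcS : algebraMap K F (c : K)⁻¹ ∉ S := by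
      rw [map_inv₀]; exact hc.2
    exact div_mem_of_unramified_inv t (c : K) hc0 (fun O hK => hunr O hK (c : K)⁻¹ hcS) f hf hf2

end Datum

end Fermat.Agent.S37.H148
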