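import Fermat.Agent.S37.H148.NoRamAbs
import Fermat.Agent.S37.Core.Leaves
import Fermat.Agent.S18.H558.PartBr

/-!
# S37, ROUTE II (helper148): `DatumStatement` from the leaves D1 and D4 ONLY

`Core.datumStatement_of_leaves` (board v3) needs D1, D2, D3, D4 and node_mod of row S18.
With THEOREM M (`Red.H159.good_of_NC`, helper159) the normality of the special fibre (H3) follows
directly over the valuation ring `A` from (H1) and the branch data of the coordinate in
characteristic `0`, which is on main for ALL admissible coordinates `j`, `t₂`, `t₃`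
(`S18.H558.br_of_isCoordinate`, helper558).  Hence

* `noRam_of_isCoordinate` : for a datum `G` with an admissible coordinate `G.x = x`:
  `NoRamOutside G G.x S₀` and `NoRamOutside G G.x⁻¹ S₁`, `S₀, S₁ ⊆ A` injective mod `𝔪_A`;
* `good_of_isCoordinate` : `G.Good` from (H1);
* `datumStatement_of_D1_D4 : Core.DatumLeaf → Core.H1Leaf → Core.DatumStatement`;
* `rimStatement_of_D1_D4 : Core.DatumLeaf → Core.H1Leaf → Core.RimStatement`;
* `result_of_D1_D4 : Core.DatumLeaf → Core.H1Leaf → Core.S18Statement → (frozen S37)`.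

No `Mod.GoodModelStatement`, no D2 (`NormalAbsStatement`), no D3 (`LiftLeaf`).
-/

set_option autoImplicit false
set_option synthInstance.maxHeartbeats 400000

noncomputable section

namespace Fermat.Agent.S37.H148

open ModularCurve ValuationSubring AlgebraicCurve HahnSeries IsLocalRing
open Fermat.Agent.S37.Core Fermat.Agent.S37.Red Fermat.Agent.S18

/-- **(NC) on both charts for an admissible coordinate.** -/
theorem noRam_of_isCoordinate (M ℓ : ℕ) [NeZero M] (hℓ : ℓ.Prime)
    (A : ValuationSubring (AlgebraicClosure ℚ)) (hA : A.LiesOverPrime ℓ)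
    (x : Mod.Om M) (S : Finset (Mod.Om M)) (hx : Mod.IsCoordinate M ℓ x S)
    (G : Datum A (residue A) (modularFunctionFieldBar M)
      (modularFunctionFieldFullC (ResidueField A) M)) :
    ∃ S₀ S₁ : Finset A, Set.InjOn (residue A) (S₀ : Set A) ∧
      Set.InjOn (residue A) (S₁ : Set A) ∧
      H159.NoRamOutside G x S₀ ∧ H159.NoRamOutside G x⁻¹ S₁ := by
  haveI : Fact ℓ.Prime := ⟨hℓ⟩
  obtain ⟨hmem, hdist, -, hunr⟩ := H558.br_of_isCoordinate M A hA ⊤ x S hx
  refine exists_noRamOutside G x S ?_ ?_ ?_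
  · intro s hs
    obtain ⟨a, ha, rfl⟩ := Subring.mem_map.1 (hmem s hs)
    exact ⟨⟨a, ha.1⟩, rfl⟩
  · intro s hs s' hs' hne
    obtain ⟨a, ha, h⟩ := Subring.mem_map.1 (hdist s hs s' hs' hne)
    exact ⟨⟨a, ha.1⟩, h⟩
  · intro O hK c hc hd hdi u hu hui
    exact hunr O (fun a ha => by
      obtain ⟨a₀, rfl⟩ := RingHom.mem_fieldRange.1 ha
      exact hK a₀) _ (RingHom.mem_fieldRange.2 ⟨c, rfl⟩) hc hd hdi u hu hui

/-- **`G.Good` for a datum with an admissible coordinate, from (H1).** -/
theorem good_of_isCoordinate (M ℓ : ℕ) [NeZero M] (hℓ : ℓ.Prime)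
    (A : ValuationSubring (AlgebraicClosure ℚ)) (hA : A.LiesOverPrime ℓ)
    (x : Mod.Om M) (S : Finset (Mod.Om M)) (hx : Mod.IsCoordinate M ℓ x S)
    (G : Datum A (residue A) (modularFunctionFieldBar M)
      (modularFunctionFieldFullC (ResidueField A) M))
    (hGx : G.x = x)
    (finite : FiniteDimensional (IntermediateField.adjoin (AlgebraicClosure ℚ) {G.x})
      (modularFunctionFieldBar M))
    (finite_k : FiniteDimensional (IntermediateField.adjoin (ResidueField A) {G.xk})
      (modularFunctionFieldFullC (ResidueField A) M))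
    (sep_k : Algebra.IsSeparable (IntermediateField.adjoin (ResidueField A) {G.xk})
      (modularFunctionFieldFullC (ResidueField A) M))
    (finrank_eq : Module.finrank (IntermediateField.adjoin (AlgebraicClosure ℚ) {G.x})
        (modularFunctionFieldBar M) =
      Module.finrank (IntermediateField.adjoin (ResidueField A) {G.xk})
        (modularFunctionFieldFullC (ResidueField A) M)) : G.Good := by
  haveI : IsAlgClosed (ResidueField A) := Fermat.Agent.S18.H9.resAlgClosed _ A
  obtain ⟨S₀, S₁, hS₀, hS₁, hNC, hNC'⟩ := noRam_of_isCoordinate M ℓ hℓ A hA x S hx G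
  rw [← hGx] at hNC hNC'
  exact H159.good_of_NC G finite finite_k sep_k finrank_eq S₀ S₁ hS₀ hS₁ hNC hNC'

/-- **node_datum from D1 and D4 only** (Route II). -/
theorem datumStatement_of_D1_D4 (hD1 : DatumLeaf) (hD4 : H1Leaf) : DatumStatement := by
  intro M ℓ _ hℓ hℓM hg A hA
  haveI : Fact ℓ.Prime := ⟨hℓ⟩
  have h3 : ℓ = 3 → 2 ∣ M := fun h => by
    rcases hg with h5 | ⟨-, h⟩ | ⟨h2, -⟩
    · omega
    · exact h
    · omega
  have h2 : ℓ = 2 → 3 ∣ M := fun h => by
    rcases hg with h5 | ⟨h3, -⟩ | ⟨-, h⟩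
    · omega
    · omega
    · exact h
  obtain ⟨x, S, hx⟩ := H333.node_coord M hℓM h3 h2
  obtain ⟨X, hX⟩ := exists_isModelOf M ℓ x S hx
  obtain ⟨G, hGx, hGxk, hlink⟩ := hD1 M ℓ hℓ hℓM A hA x X hX
  obtain ⟨hf, hfk, hsep, hrk⟩ := hD4 M ℓ hℓ hℓM A hA x S hx X hX G hGx hGxk
  exact ⟨G, good_of_isCoordinate M ℓ hℓ A hA x S hx G hGx hf hfk hsep hrk, hlink⟩

/-- **node_rim from D1 and D4 only.** -/
theorem rimStatement_of_D1_D4 (hD1 : DatumLeaf) (hD4 : H1Leaf) : RimStatement :=
  rimStatement_of_datum (datumStatement_of_D1_D4 hD1 hD4)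

/-- **The frozen statement S37 from D1, D4 and S18.** -/
theorem result_of_D1_D4 (hD1 : DatumLeaf) (hD4 : H1Leaf) (hS18 : S18Statement) (N p : ℕ)
    [NeZero N] (hcomm : ModularCurve.HeckeOperatorsCommuteBar N) :
    letI := ModularCurve.heckeModuleBar N
    ∀ (_ : SMulCommClass (AlgebraicClosure ℚ ≃ₐ[ℚ] AlgebraicClosure ℚ) ModularCurve.HeckeAlg
      (ModularCurve.JZero N)),
      ModularCurve.SpecializationExists (K := ℚ) (L := AlgebraicClosure ℚ) N p
        (ModularCurve.JZero N) :=
  result_of_rim_s18 (rimStatement_of_D1_D4 hD1 hD4) hS18 N p hcomm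

end Fermat.Agent.S37.H148
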